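/-
S53 support library (helper7): shared definitions for the proof of the existence of
universal deformation rings.  Only definitions and a few trivial lemmas live here, so that
the sub-tasks T1..T4 can be developed against a fixed interface.
-/
import Mathlib
import Fermat.Prelude.Def_GaloisRep_DeformationRingData
import Fermat.Prelude.Def_GaloisRep_DeformationCondition

set_option autoImplicit false

noncomputable section

namespace Fermat.Agent.S53Lib

/-- The absolute Galois group of `ℚ`, as spelled in the prelude. -/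
abbrev GQ : Type := AlgebraicClosure ℚ ≃ₐ[ℚ] AlgebraicClosure ℚ

/-- `Matrix.toLin'` as a monoid hom. -/
def toLinHom (A : Type) [CommRing A] :
    Matrix (Fin 2) (Fin 2) A →* Module.End A (Fin 2 → A) :=
  (Matrix.toLinAlgEquiv' : Matrix (Fin 2) (Fin 2) A ≃ₐ[A] Module.End A (Fin 2 → A))

@[simp] theorem toLinHom_apply (A : Type) [CommRing A] (M : Matrix (Fin 2) (Fin 2) A)
    (v : Fin 2 → A) : toLinHom A M v = M.mulVec v := rfl

/-- Adic continuity of a matrix valued homomorphism of `G_ℚ` (matrix form of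
`GaloisActionIsAdicContinuous`). -/
def MatCont (A : Type) [CommRing A] [IsLocalRing A] (r : GQ →* Matrix (Fin 2) (Fin 2) A) : Prop :=
  ∀ n : ℕ, ∃ L : IntermediateField ℚ (AlgebraicClosure ℚ), FiniteDimensional ℚ L ∧
    ∀ σ : GQ, (∀ x ∈ L, σ x = x) →
      ∀ i j : Fin 2, (r σ - 1) i j ∈ IsLocalRing.maximalIdeal A ^ n

/-- The `GaloisRepAdic` on `A²` attached to a continuous matrix valued homomorphism. -/
def matRep (A : Type) [CommRing A] [IsLocalRing A] (r : GQ →* Matrix (Fin 2) (Fin 2) A)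
    (hr : MatCont A r) : GaloisRepAdic A where
  V := Fin 2 → A
  finrank_eq := by simp
  ρ := (toLinHom A).comp r
  isAdicContinuous := by
    intro n
    obtain ⟨L, hL, h⟩ := hr n
    refine ⟨L, hL, fun σ hσ v => ?_⟩
    have hv : (toLinHom A).comp r σ v - v = ∑ i : Fin 2, ((r σ - 1).mulVec v i) • (Pi.single i (1 : A) : Fin 2 → A) := by
      ext a
      simp [Matrix.sub_mulVec, Pi.single_apply]
    rw [hv]
    refine Submodule.sum_mem _ fun i _ => Submodule.smul_mem_smul ?_ Submodule.mem_top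
    simp only [Matrix.mulVec, dotProduct]
    exact Ideal.sum_mem _ fun j _ => Ideal.mul_mem_right _ _ (h σ hσ i j)

@[simp] theorem matRep_ρ_apply (A : Type) [CommRing A] [IsLocalRing A]
    (r : GQ →* Matrix (Fin 2) (Fin 2) A) (hr : MatCont A r) (σ : GQ) (v : Fin 2 → A) :
    (matRep A r hr).ρ σ v = (r σ).mulVec v := rfl

/-- Finite-level continuity of a matrix valued homomorphism over a field. -/
def ResMatCont (k : Type) [Field k] (r : GQ →* Matrix (Fin 2) (Fin 2) k) : Prop :=
  ∃ L : IntermediateField ℚ (AlgebraicClosure ℚ), FiniteDimensional ℚ L ∧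
    ∀ σ : GQ, (∀ x ∈ L, σ x = x) → r σ = 1

/-- The `ResidualGaloisRep` on `k²` attached to a matrix valued homomorphism. -/
def resMatRep (k : Type) [Field k] (r : GQ →* Matrix (Fin 2) (Fin 2) k)
    (hr : ResMatCont k r) : ResidualGaloisRep k where
  V := Fin 2 → k
  finrank_eq := by simp
  ρ := (toLinHom k).comp r
  factorsThroughFiniteLevel := by
    obtain ⟨L, hL, h⟩ := hr
    exact ⟨L, hL, fun σ hσ => by rw [MonoidHom.comp_apply, h σ hσ, map_one]⟩

@[simp] theorem resMatRep_ρ_apply (k : Type) [Field k]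
    (r : GQ →* Matrix (Fin 2) (Fin 2) k) (hr : ResMatCont k r) (σ : GQ) (v : Fin 2 → k) :
    (resMatRep k r hr).ρ σ v = (r σ).mulVec v := rfl

/-- The entrywise image of a matrix valued homomorphism under a ring hom. -/
def mapMat {A B : Type} [CommRing A] [CommRing B] (φ : A →+* B)
    (r : GQ →* Matrix (Fin 2) (Fin 2) A) : GQ →* Matrix (Fin 2) (Fin 2) B :=
  (φ.mapMatrix : Matrix (Fin 2) (Fin 2) A →+* Matrix (Fin 2) (Fin 2) B).toMonoidHom.comp r

@[simp] theorem mapMat_apply {A B : Type} [CommRing A] [CommRing B] (φ : A →+* B)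
    (r : GQ →* Matrix (Fin 2) (Fin 2) A) (σ : GQ) (i j : Fin 2) :
    mapMat φ r σ i j = φ (r σ i j) := rfl

/-- Slice ("normalisation") data: three matrix-entry positions with prescribed values in `𝒪`. -/
structure Slice (𝒪 : Type) where
  g : Fin 3 → GQ
  a : Fin 3 → Fin 2
  b : Fin 3 → Fin 2
  v : Fin 3 → 𝒪

/-- `r` lifts the residual matrices whose chosen set-theoretic lift to `𝒪` is `rt`. -/
def IsLift {𝒪 : Type} [CommRing 𝒪] (rt : GQ → Matrix (Fin 2) (Fin 2) 𝒪) (A : Type) [CommRing A]
    [IsLocalRing A] [Algebra 𝒪 A] (r : GQ →* Matrix (Fin 2) (Fin 2) A) : Prop :=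
  ∀ (σ : GQ) (i j : Fin 2), r σ i j - algebraMap 𝒪 A (rt σ i j) ∈ IsLocalRing.maximalIdeal A

/-- `r` takes the prescribed values at the three slice positions. -/
def InSlice {𝒪 : Type} [CommRing 𝒪] (sl : Slice 𝒪) (A : Type) [CommRing A] [Algebra 𝒪 A]
    (r : GQ →* Matrix (Fin 2) (Fin 2) A) : Prop :=
  ∀ s : Fin 3, r (sl.g s) (sl.a s) (sl.b s) = algebraMap 𝒪 A (sl.v s)

end Fermat.Agent.S53Lib

end
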