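/-
S53 support library (helper7): the universal ring `Univ sl` classifying matrix valued
homomorphisms of `G_ℚ` lying in a slice, and its tautological representation.
-/
import Mathlib
import Fermat.Agent.Lib.H7.S53Defs

set_option autoImplicit false

noncomputable section

namespace Fermat.Agent.S53Lib

open IsLocalRing

variable {𝒪 : Type} [CommRing 𝒪]

/-- Index set of the polynomial variables: a group element and a matrix position. -/
abbrev Idx : Type := GQ × Fin 2 × Fin 2

/-- The big polynomial ring. -/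
abbrev Poly (𝒪 : Type) [CommRing 𝒪] : Type := MvPolynomial Idx 𝒪

/-- The matrix of variables attached to a group element. -/
def polyMat (𝒪 : Type) [CommRing 𝒪] (σ : GQ) : Matrix (Fin 2) (Fin 2) (Poly 𝒪) :=
  Matrix.of fun i j => MvPolynomial.X (σ, i, j)

@[simp] theorem polyMat_apply (σ : GQ) (i j : Fin 2) :
    polyMat 𝒪 σ i j = MvPolynomial.X (σ, i, j) := rfl

/-- The relations: multiplicativity, unit, and the slice conditions. -/
def relSet (sl : Slice 𝒪) : Set (Poly 𝒪) :=
  {p | ∃ (σ τ : GQ) (i j : Fin 2),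
      p = polyMat 𝒪 (σ * τ) i j - (polyMat 𝒪 σ * polyMat 𝒪 τ) i j} ∪
  {p | ∃ i j : Fin 2, p = polyMat 𝒪 1 i j - (1 : Matrix (Fin 2) (Fin 2) (Poly 𝒪)) i j} ∪
  {p | ∃ s : Fin 3, p = MvPolynomial.X (sl.g s, sl.a s, sl.b s) - MvPolynomial.C (sl.v s)}

/-- The ideal of relations. -/
def relIdeal (sl : Slice 𝒪) : Ideal (Poly 𝒪) := Ideal.span (relSet sl)

/-- The universal ring of the slice. -/
def Univ (sl : Slice 𝒪) : Type := Poly 𝒪 ⧸ relIdeal sl

instance instCommRingUniv (sl : Slice 𝒪) : CommRing (Univ sl) :=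
  inferInstanceAs (CommRing (Poly 𝒪 ⧸ relIdeal sl))

instance instAlgebraUniv (sl : Slice 𝒪) : Algebra 𝒪 (Univ sl) :=
  inferInstanceAs (Algebra 𝒪 (Poly 𝒪 ⧸ relIdeal sl))

/-- The quotient map from the polynomial ring. -/
def univMk (sl : Slice 𝒪) : Poly 𝒪 →ₐ[𝒪] Univ sl :=
  Ideal.Quotient.mkₐ 𝒪 (relIdeal sl)

theorem univMk_surjective (sl : Slice 𝒪) : Function.Surjective (univMk sl) :=
  Ideal.Quotient.mk_surjective

theorem univMk_eq_zero (sl : Slice 𝒪) {p : Poly 𝒪} (hp : p ∈ relIdeal sl) : univMk sl p = 0 :=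
  Ideal.Quotient.eq_zero_iff_mem.mpr hp

/-- The tautological representation over the universal ring. -/
def tautU (sl : Slice 𝒪) : GQ →* Matrix (Fin 2) (Fin 2) (Univ sl) where
  toFun σ := (polyMat 𝒪 σ).map (univMk sl)
  map_one' := by
    ext i j
    have h : polyMat 𝒪 1 i j - (1 : Matrix (Fin 2) (Fin 2) (Poly 𝒪)) i j ∈ relIdeal sl :=
      Ideal.subset_span (Or.inl (Or.inr ⟨i, j, rfl⟩))
    have h2 := univMk_eq_zero sl h
    rw [map_sub, sub_eq_zero] at h2
    rw [Matrix.map_apply, h2]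
    by_cases hij : i = j
    · subst hij; simp
    · simp [Matrix.one_apply_ne hij]
  map_mul' σ τ := by
    ext i j
    have h : polyMat 𝒪 (σ * τ) i j - (polyMat 𝒪 σ * polyMat 𝒪 τ) i j ∈ relIdeal sl :=
      Ideal.subset_span (Or.inl (Or.inl ⟨σ, τ, i, j, rfl⟩))
    have h2 := univMk_eq_zero sl h
    rw [map_sub, sub_eq_zero] at h2
    rw [Matrix.map_apply, h2, ← Matrix.map_mul, Matrix.map_apply]

theorem tautU_apply (sl : Slice 𝒪) (σ : GQ) (i j : Fin 2) :
    tautU sl σ i j = univMk sl (MvPolynomial.X (σ, i, j)) := rfl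

theorem tautU_inSlice (sl : Slice 𝒪) : InSlice sl (Univ sl) (tautU sl) := by
  intro s
  have h : (MvPolynomial.X (sl.g s, sl.a s, sl.b s) - MvPolynomial.C (sl.v s) : Poly 𝒪)
      ∈ relIdeal sl := Ideal.subset_span (Or.inr ⟨s, rfl⟩)
  have h2 := univMk_eq_zero sl h
  rw [map_sub, sub_eq_zero] at h2
  rw [tautU_apply, h2]
  exact (univMk sl).commutes (sl.v s)

section Classify

variable (sl : Slice 𝒪) (A : Type) [CommRing A] [Algebra 𝒪 A]

/-- Evaluation of the polynomial ring at the entries of `r`. -/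
def polyEval (r : GQ →* Matrix (Fin 2) (Fin 2) A) : Poly 𝒪 →ₐ[𝒪] A :=
  MvPolynomial.aeval fun x : Idx => r x.1 x.2.1 x.2.2

theorem polyEval_polyMat (r : GQ →* Matrix (Fin 2) (Fin 2) A) (σ : GQ) :
    (polyMat 𝒪 σ).map (polyEval A r) = r σ := by
  ext i j
  simp [polyEval]

theorem relIdeal_le_ker (r : GQ →* Matrix (Fin 2) (Fin 2) A) (h : InSlice sl A r) :
    ∀ p ∈ relIdeal sl, polyEval A r p = 0 := by
  intro p hp
  have hle : relIdeal sl ≤ RingHom.ker (polyEval (𝒪 := 𝒪) A r).toRingHom := by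
    apply Ideal.span_le.mpr
    rintro p ((⟨σ, τ, i, j, rfl⟩ | ⟨i, j, rfl⟩) | ⟨s, rfl⟩)
    · show polyEval A r _ = 0
      rw [map_sub, sub_eq_zero]
      have h1 : polyEval (𝒪 := 𝒪) A r ((polyMat 𝒪 σ * polyMat 𝒪 τ) i j) =
          ((polyMat 𝒪 σ * polyMat 𝒪 τ).map (polyEval (𝒪 := 𝒪) A r)) i j := rfl
      have h2 : polyEval (𝒪 := 𝒪) A r (polyMat 𝒪 (σ * τ) i j) =
          ((polyMat 𝒪 (σ * τ)).map (polyEval (𝒪 := 𝒪) A r)) i j := rfl
      rw [h1, h2, Matrix.map_mul, polyEval_polyMat, polyEval_polyMat, polyEval_polyMat, map_mul]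
    · show polyEval A r _ = 0
      rw [map_sub, sub_eq_zero]
      have h2 : polyEval (𝒪 := 𝒪) A r (polyMat 𝒪 1 i j) =
          ((polyMat 𝒪 1).map (polyEval (𝒪 := 𝒪) A r)) i j := rfl
      rw [h2, polyEval_polyMat, map_one]
      by_cases hij : i = j
      · subst hij; simp
      · simp [Matrix.one_apply_ne hij]
    · show polyEval A r _ = 0
      rw [map_sub, sub_eq_zero]
      simp only [polyEval, MvPolynomial.aeval_X, MvPolynomial.aeval_C]
      exact h s
  exact hle hp

/-- The classifying map of a homomorphism in the slice. -/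
def classify (r : GQ →* Matrix (Fin 2) (Fin 2) A) (h : InSlice sl A r) : Univ sl →ₐ[𝒪] A :=
  Ideal.Quotient.liftₐ (relIdeal sl) (polyEval A r) (relIdeal_le_ker sl A r h)

theorem classify_univMk (r : GQ →* Matrix (Fin 2) (Fin 2) A) (h : InSlice sl A r) (p : Poly 𝒪) :
    classify sl A r h (univMk sl p) = polyEval A r p := rfl

theorem classify_tautU (r : GQ →* Matrix (Fin 2) (Fin 2) A) (h : InSlice sl A r) (σ : GQ)
    (i j : Fin 2) : classify sl A r h (tautU sl σ i j) = r σ i j := by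
  rw [tautU_apply, classify_univMk]
  simp [polyEval]

theorem mapMat_classify (r : GQ →* Matrix (Fin 2) (Fin 2) A) (h : InSlice sl A r) :
    mapMat (classify sl A r h : Univ sl →+* A) (tautU sl) = r := by
  ext σ i j
  rw [mapMat_apply]
  exact classify_tautU sl A r h σ i j

variable {sl A}

/-- Algebra maps out of the universal ring are determined by the image of the tautological
representation. -/
theorem univ_algHom_ext {f g : Univ sl →ₐ[𝒪] A}
    (h : mapMat (f : Univ sl →+* A) (tautU sl) = mapMat (g : Univ sl →+* A) (tautU sl)) :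
    f = g := by
  have h1 : f.comp (univMk sl) = g.comp (univMk sl) := by
    apply MvPolynomial.algHom_ext
    rintro ⟨σ, i, j⟩
    have := congrArg (fun r : GQ →* Matrix (Fin 2) (Fin 2) A => r σ i j) h
    simpa [tautU_apply] using this
  ext x
  obtain ⟨p, rfl⟩ := univMk_surjective sl x
  exact congrArg (fun F : Poly 𝒪 →ₐ[𝒪] A => F p) h1

theorem inSlice_mapMat (f : Univ sl →ₐ[𝒪] A) :
    InSlice sl A (mapMat (f : Univ sl →+* A) (tautU sl)) := by
  intro s
  rw [mapMat_apply, tautU_inSlice sl s]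
  exact f.commutes _

/-- Ring homs out of the universal ring are determined by their values on scalars and on the
tautological entries. -/
theorem univ_ringHom_ext {B : Type} [CommRing B] {f g : Univ sl →+* B}
    (hC : ∀ c : 𝒪, f (algebraMap 𝒪 (Univ sl) c) = g (algebraMap 𝒪 (Univ sl) c))
    (hX : ∀ (σ : GQ) (i j : Fin 2), f (tautU sl σ i j) = g (tautU sl σ i j)) : f = g := by
  have h1 : f.comp (univMk sl : Poly 𝒪 →+* Univ sl) = g.comp (univMk sl : Poly 𝒪 →+* Univ sl) := by
    apply MvPolynomial.ringHom_ext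
    · intro c
      have := hC c
      rw [← (univMk sl).commutes c] at this
      exact this
    · rintro ⟨σ, i, j⟩
      exact hX σ i j
  ext x
  obtain ⟨p, rfl⟩ := univMk_surjective sl x
  exact congrArg (fun F : Poly 𝒪 →+* B => F p) h1

end Classify

attribute [irreducible] Univ

end Fermat.Agent.S53Lib

end
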