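/-
S53 support library (helper7): the family of ideals of the universal ring attached to a
deformation condition, and the verification of the hypotheses of the abstract
pro-representability theorem.
-/
import Mathlib
import Fermat.Agent.Lib.H7.S53Univ
import Fermat.Agent.Lib.S53.S53T4

set_option autoImplicit false

noncomputable section

namespace Fermat.Agent.S53Lib

open IsLocalRing

/-! ### Quotients `U ⧸ J` with `m ^ n ≤ J ≤ m` are local -/

section QuotLocal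

variable {U : Type} [CommRing U] (m : Ideal U) [hm : m.IsMaximal]

include hm in
theorem isLocalRing_quot {J : Ideal U} (hJ : J ≤ m) {n : ℕ} (hn : m ^ n ≤ J) :
    IsLocalRing (U ⧸ J) := by
  have hker : RingHom.ker (Ideal.Quotient.mk J) ≤ m := by rwa [Ideal.mk_ker]
  have hmax : (m.map (Ideal.Quotient.mk J)).IsMaximal :=
    Ideal.IsMaximal.map_of_surjective_of_ker_le Ideal.Quotient.mk_surjective hker
  refine IsLocalRing.of_unique_max_ideal ⟨_, hmax, fun M hM => ?_⟩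
  have hc : (M.comap (Ideal.Quotient.mk J)).IsMaximal :=
    Ideal.comap_isMaximal_of_surjective _ Ideal.Quotient.mk_surjective
  have hJM : J ≤ M.comap (Ideal.Quotient.mk J) := by
    intro x hx
    rw [Ideal.mem_comap, Ideal.Quotient.eq_zero_iff_mem.mpr hx]
    exact M.zero_mem
  have hmM : m ≤ M.comap (Ideal.Quotient.mk J) :=
    Ideal.IsPrime.le_of_pow_le (hn.trans hJM)
  have heq : m = M.comap (Ideal.Quotient.mk J) := hm.eq_of_le hc.ne_top hmM
  rw [heq, Ideal.map_comap_of_surjective _ Ideal.Quotient.mk_surjective]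

include hm in
theorem maximalIdeal_quot {J : Ideal U} [IsLocalRing (U ⧸ J)] (hJ : J ≤ m) :
    maximalIdeal (U ⧸ J) = m.map (Ideal.Quotient.mk J) := by
  have hker : RingHom.ker (Ideal.Quotient.mk J) ≤ m := by rwa [Ideal.mk_ker]
  exact (IsLocalRing.eq_maximalIdeal
    (Ideal.IsMaximal.map_of_surjective_of_ker_le Ideal.Quotient.mk_surjective hker)).symm

include hm in
theorem mk_mem_maximalIdeal_quot_iff {J : Ideal U} [IsLocalRing (U ⧸ J)] (hJ : J ≤ m) (u : U) :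
    Ideal.Quotient.mk J u ∈ maximalIdeal (U ⧸ J) ↔ u ∈ m := by
  rw [maximalIdeal_quot m hJ]
  constructor
  · intro h
    have := Ideal.mem_comap.mpr h
    rwa [Ideal.comap_map_of_surjective _ Ideal.Quotient.mk_surjective, ← RingHom.ker_eq_comap_bot,
      Ideal.mk_ker, sup_of_le_left hJ] at this
  · exact fun h => Ideal.mem_map_of_mem _ h

end QuotLocal

/-! ### Rigidification data (output of sub-task T3) -/

/-- The data produced by `exists_rigidification`. -/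
structure RigidData (𝒪 : Type) [CommRing 𝒪] [IsLocalRing 𝒪]
    (ρbar : ResidualGaloisRep (ResidueField 𝒪)) : Type where
  rb : GQ →* Matrix (Fin 2) (Fin 2) (ResidueField 𝒪)
  hrb : ResMatCont (ResidueField 𝒪) rb
  rt : GQ → Matrix (Fin 2) (Fin 2) 𝒪
  sl : Slice 𝒪
  equiv : ρbar.IsEquiv (resMatRep (ResidueField 𝒪) rb hrb)
  res_rt : ∀ (σ : GQ) (i j : Fin 2), IsLocalRing.residue 𝒪 (rt σ i j) = rb σ i j
  sl_v : ∀ s : Fin 3, sl.v s = rt (sl.g s) (sl.a s) (sl.b s)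
  exists_slice : ∀ (A : Type) [CommRing A] [IsLocalRing A] [Algebra 𝒪 A]
    [IsAdicComplete (maximalIdeal A) A] (_ : IsLocalHom (algebraMap 𝒪 A))
    (r : GQ →* Matrix (Fin 2) (Fin 2) A), IsLift rt A r →
    ∃ r' : GQ →* Matrix (Fin 2) (Fin 2) A, IsLift rt A r' ∧ InSlice sl A r' ∧
      ∃ P : Matrix (Fin 2) (Fin 2) A, IsUnit P ∧ ∀ σ : GQ, P * r σ = r' σ * P
  unique_slice : ∀ (A : Type) [CommRing A] [IsLocalRing A] [Algebra 𝒪 A]
    [IsAdicComplete (maximalIdeal A) A] (_ : IsLocalHom (algebraMap 𝒪 A))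
    (_ : Function.Surjective (IsLocalRing.residue A ∘ algebraMap 𝒪 A))
    (r r' : GQ →* Matrix (Fin 2) (Fin 2) A), IsLift rt A r → IsLift rt A r' →
    InSlice sl A r → InSlice sl A r' →
    (∃ P : Matrix (Fin 2) (Fin 2) A, IsUnit P ∧ ∀ σ : GQ, P * r σ = r' σ * P) → r = r'

section Family

variable {𝒪 : Type} [CommRing 𝒪] [IsLocalRing 𝒪]
variable {ρbar : ResidualGaloisRep (ResidueField 𝒪)} (D : RigidData 𝒪 ρbar)

theorem RigidData.rb_inSlice : InSlice D.sl (ResidueField 𝒪) D.rb := by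
  intro s
  rw [D.sl_v, ← D.res_rt]
  rfl

/-- The residual character of the universal ring. -/
def chi : Univ D.sl →ₐ[𝒪] ResidueField 𝒪 :=
  classify D.sl (ResidueField 𝒪) D.rb D.rb_inSlice

theorem chi_tautU (σ : GQ) (i j : Fin 2) : chi D (tautU D.sl σ i j) = D.rb σ i j :=
  classify_tautU D.sl (ResidueField 𝒪) D.rb D.rb_inSlice σ i j

theorem chi_surjective : Function.Surjective (chi D) := by
  intro x
  obtain ⟨c, rfl⟩ := IsLocalRing.residue_surjective x
  exact ⟨algebraMap 𝒪 (Univ D.sl) c, (chi D).commutes c⟩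

/-- The maximal ideal of the universal ring: the kernel of the residual character. -/
def mChi : Ideal (Univ D.sl) := RingHom.ker (chi D).toRingHom

instance mChi_isMaximal : (mChi D).IsMaximal :=
  RingHom.ker_isMaximal_of_surjective (chi D).toRingHom (chi_surjective D)

theorem mem_mChi (u : Univ D.sl) : u ∈ mChi D ↔ chi D u = 0 := Iff.rfl

theorem algebraMap_mem_mChi {c : 𝒪} (hc : c ∈ maximalIdeal 𝒪) :
    algebraMap 𝒪 (Univ D.sl) c ∈ mChi D := by
  rw [mem_mChi, (chi D).commutes]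
  exact (IsLocalRing.residue_eq_zero_iff c).mpr hc

theorem tautU_sub_mem_mChi (σ : GQ) (i j : Fin 2) :
    tautU D.sl σ i j - algebraMap 𝒪 (Univ D.sl) (D.rt σ i j) ∈ mChi D := by
  rw [mem_mChi, map_sub, chi_tautU, (chi D).commutes, ← D.res_rt]
  exact sub_self _

theorem exists_sub_algebraMap_mem_mChi (u : Univ D.sl) :
    ∃ c : 𝒪, u - algebraMap 𝒪 (Univ D.sl) c ∈ mChi D := by
  obtain ⟨c, hc⟩ := IsLocalRing.residue_surjective (chi D u)
  refine ⟨c, ?_⟩
  rw [mem_mChi, map_sub, (chi D).commutes]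
  exact sub_eq_zero.mpr hc.symm

/-- The tautological representation over a quotient of the universal ring. -/
def tautJ (J : Ideal (Univ D.sl)) : GQ →* Matrix (Fin 2) (Fin 2) (Univ D.sl ⧸ J) :=
  mapMat (A := Univ D.sl) (B := Univ D.sl ⧸ J) (Ideal.Quotient.mk J) (tautU D.sl)

theorem tautJ_apply (J : Ideal (Univ D.sl)) (σ : GQ) (i j : Fin 2) :
    tautJ D J σ i j = Ideal.Quotient.mk J (tautU D.sl σ i j) := rfl

/-- Quotients of the universal ring by ideals between `mChi ^ n` and `mChi` with finite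
quotient are Artinian test algebras. -/
theorem isArtinianTestAlgebra_quot {J : Ideal (Univ D.sl)} [IsLocalRing (Univ D.sl ⧸ J)]
    (hJ : J ≤ mChi D) [Finite (Univ D.sl ⧸ J)] :
    GaloisRep.IsArtinianTestAlgebra 𝒪 (Univ D.sl ⧸ J) where
  isLocalHom := by
    refine ((IsLocalRing.local_hom_TFAE (algebraMap 𝒪 (Univ D.sl ⧸ J))).out 0 3).mpr ?_
    intro c hc
    rw [Ideal.mem_comap]
    exact (mk_mem_maximalIdeal_quot_iff (mChi D) hJ _).mpr (algebraMap_mem_mChi D hc)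
  residue_surjective := by
    intro x
    obtain ⟨y, rfl⟩ := IsLocalRing.residue_surjective x
    obtain ⟨u, rfl⟩ := Ideal.Quotient.mk_surjective y
    obtain ⟨c, hc⟩ := exists_sub_algebraMap_mem_mChi D u
    refine ⟨c, ?_⟩
    rw [Function.comp_apply, eq_comm, ← sub_eq_zero, ← map_sub, IsLocalRing.residue_eq_zero_iff]
    exact (mk_mem_maximalIdeal_quot_iff (mChi D) hJ _).mpr hc
  isArtinian := inferInstance

end Family

/-! ### General helpers -/

section Helpers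

theorem MatCont.of_trivial {A : Type} [CommRing A] [IsLocalRing A]
    {r : GQ →* Matrix (Fin 2) (Fin 2) A}
    (h : ∃ L : IntermediateField ℚ (AlgebraicClosure ℚ), FiniteDimensional ℚ L ∧
      ∀ σ : GQ, (∀ x ∈ L, σ x = x) → r σ = 1) : MatCont A r := by
  intro n
  obtain ⟨L, hL, h⟩ := h
  refine ⟨L, hL, fun σ hσ i j => ?_⟩
  rw [h σ hσ, sub_self]
  exact Ideal.zero_mem _

theorem matRep_congr {A : Type} [CommRing A] [IsLocalRing A]
    {r r' : GQ →* Matrix (Fin 2) (Fin 2) A} (h : r = r') (hr : MatCont A r) (hr' : MatCont A r') :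
    (matRep A r hr).IsEquiv (matRep A r' hr') := by
  subst h
  exact ⟨GaloisRepAdic.Equiv.refl _⟩

theorem isEquiv_symm {A : Type} [CommRing A] [IsLocalRing A] {ρ₁ ρ₂ : GaloisRepAdic A}
    (h : ρ₁.IsEquiv ρ₂) : ρ₂.IsEquiv ρ₁ := h.elim fun e => ⟨e.symm⟩

theorem isEquiv_trans {A : Type} [CommRing A] [IsLocalRing A] {ρ₁ ρ₂ ρ₃ : GaloisRepAdic A}
    (h : ρ₁.IsEquiv ρ₂) (h' : ρ₂.IsEquiv ρ₃) : ρ₁.IsEquiv ρ₃ :=
  h.elim fun e => h'.elim fun e' => ⟨e.trans e'⟩

theorem isLocalHom_of_surjective {A B : Type} [CommRing A] [IsLocalRing A] [CommRing B]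
    [IsLocalRing B] (f : A →+* B) (hf : Function.Surjective f) : IsLocalHom f := by
  refine ⟨fun a ha => ?_⟩
  by_contra hna
  have h1 : IsUnit (1 - a) := by
    have := IsLocalRing.isUnit_or_isUnit_one_sub_self a
    tauto
  obtain ⟨b, hb⟩ := hf (↑(ha.unit⁻¹))
  have h2 : f (1 - a * b) = 0 := by
    rw [map_sub, map_mul, hb, map_one, IsUnit.mul_val_inv, sub_self]
  have h3 : IsUnit (1 - a * b) := by
    have := IsLocalRing.isUnit_or_isUnit_one_sub_self (a * b)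
    rcases this with h | h
    · exact absurd (isUnit_of_mul_isUnit_left h) hna
    · exact h
  have h4 : IsUnit (f (1 - a * b)) := h3.map f
  rw [h2] at h4
  exact not_isUnit_zero h4

theorem mapMat_mapMat {A B C : Type} [CommRing A] [CommRing B] [CommRing C] (φ : A →+* B)
    (ψ : B →+* C) (r : GQ →* Matrix (Fin 2) (Fin 2) A) :
    mapMat ψ (mapMat φ r) = mapMat (ψ.comp φ) r := by
  ext σ i j
  rfl

end Helpers

section Family2

variable {𝒪 : Type} [CommRing 𝒪] [IsLocalRing 𝒪]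
variable {ρbar : ResidualGaloisRep (ResidueField 𝒪)} (D : RigidData 𝒪 ρbar)
variable (𝒟 : ∀ ⦃A : Type⦄ [CommRing A] [IsLocalRing A] [Algebra 𝒪 A], GaloisRepAdic A → Prop)

omit [IsLocalRing 𝒪] in
/-- Transport of `𝒟` along a local algebra map of test algebras, in matrix form. -/
theorem D_map (h𝒟 : GaloisRep.IsDeformationCondition 𝒪 𝒟) {A B : Type} [CommRing A]
    [IsLocalRing A] [Algebra 𝒪 A] [CommRing B] [IsLocalRing B] [Algebra 𝒪 B]
    (hA : GaloisRep.IsArtinianTestAlgebra 𝒪 A) (hB : GaloisRep.IsArtinianTestAlgebra 𝒪 B)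
    (φ : A →ₐ[𝒪] B) (hφ : IsLocalHom (φ : A →+* B))
    {r : GQ →* Matrix (Fin 2) (Fin 2) A} (hr : MatCont A r)
    {r' : GQ →* Matrix (Fin 2) (Fin 2) B} (hr' : MatCont B r')
    (hrr' : mapMat (φ : A →+* B) r = r') (h : 𝒟 (matRep A r hr)) : 𝒟 (matRep B r' hr') := by
  subst hrr'
  have h1 : 𝒟 ((matRep A r hr).baseChangeAlong (φ : A →+* B) hφ) :=
    h𝒟.baseChangeAlong hA hB φ hφ h
  exact h𝒟.of_isEquiv hB (isEquiv_trans (matRep_baseChangeAlong A B (φ : A →+* B) hφ r hr)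
    (matRep_congr rfl _ _)) h1

omit [IsLocalRing 𝒪] in
/-- Descent of `𝒟` along an injective local algebra map of test algebras, in matrix form. -/
theorem D_of_map_injective (h𝒟 : GaloisRep.IsDeformationCondition 𝒪 𝒟) {A B : Type} [CommRing A]
    [IsLocalRing A] [Algebra 𝒪 A] [CommRing B] [IsLocalRing B] [Algebra 𝒪 B]
    (hA : GaloisRep.IsArtinianTestAlgebra 𝒪 A) (hB : GaloisRep.IsArtinianTestAlgebra 𝒪 B)
    (φ : A →ₐ[𝒪] B) (hφ : IsLocalHom (φ : A →+* B)) (hinj : Function.Injective φ)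
    {r : GQ →* Matrix (Fin 2) (Fin 2) A} (hr : MatCont A r)
    {r' : GQ →* Matrix (Fin 2) (Fin 2) B} (hr' : MatCont B r')
    (hrr' : mapMat (φ : A →+* B) r = r') (h : 𝒟 (matRep B r' hr')) : 𝒟 (matRep A r hr) := by
  subst hrr'
  refine h𝒟.of_baseChangeAlong_injective hA hB φ hφ hinj ?_
  exact h𝒟.of_isEquiv hB (isEquiv_symm (isEquiv_trans
    (matRep_baseChangeAlong A B (φ : A →+* B) hφ r hr) (matRep_congr rfl _ _))) h

omit [IsLocalRing 𝒪] in
/-- `𝒟` of a base change, from `𝒟` of the image matrix representation. -/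
theorem D_baseChange_of (h𝒟 : GaloisRep.IsDeformationCondition 𝒪 𝒟) {A B : Type} [CommRing A]
    [IsLocalRing A] [Algebra 𝒪 A] [CommRing B] [IsLocalRing B] [Algebra 𝒪 B]
    (hB : GaloisRep.IsArtinianTestAlgebra 𝒪 B)
    (φ : A →+* B) (hφ : IsLocalHom φ)
    {r : GQ →* Matrix (Fin 2) (Fin 2) A} (hr : MatCont A r)
    {r' : GQ →* Matrix (Fin 2) (Fin 2) B} (hr' : MatCont B r')
    (hrr' : mapMat φ r = r') (h : 𝒟 (matRep B r' hr')) :
    𝒟 ((matRep A r hr).baseChangeAlong φ hφ) := by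
  subst hrr'
  exact h𝒟.of_isEquiv hB (isEquiv_symm (isEquiv_trans
    (matRep_baseChangeAlong A B φ hφ r hr) (matRep_congr rfl _ _))) h

/-- The finite-level triviality condition for the tautological representation mod `J`. -/
def TautTrivial (J : Ideal (Univ D.sl)) : Prop :=
  ∃ L : IntermediateField ℚ (AlgebraicClosure ℚ), FiniteDimensional ℚ L ∧
    ∀ σ : GQ, (∀ x ∈ L, σ x = x) → tautJ D J σ = 1

/-- The family of ideals of the universal ring cut out by the deformation condition. -/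
def FamI : Set (Ideal (Univ D.sl)) :=
  {J | J ≤ mChi D ∧ Finite (Univ D.sl ⧸ J) ∧ (∃ n : ℕ, mChi D ^ n ≤ J) ∧ TautTrivial D J ∧
    ∀ (_ : IsLocalRing (Univ D.sl ⧸ J)) (hc : MatCont (Univ D.sl ⧸ J) (tautJ D J)),
      𝒟 (matRep (Univ D.sl ⧸ J) (tautJ D J) hc)}

variable {D 𝒟}

theorem famI_le {J : Ideal (Univ D.sl)} (hJ : J ∈ FamI D 𝒟) : J ≤ mChi D := hJ.1

theorem famI_finite {J : Ideal (Univ D.sl)} (hJ : J ∈ FamI D 𝒟) : Finite (Univ D.sl ⧸ J) :=
  hJ.2.1

theorem famI_isLocalRing {J : Ideal (Univ D.sl)} (hJ : J ∈ FamI D 𝒟) :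
    IsLocalRing (Univ D.sl ⧸ J) := by
  obtain ⟨n, hn⟩ := hJ.2.2.1
  exact isLocalRing_quot (mChi D) hJ.1 hn

theorem famI_matCont {J : Ideal (Univ D.sl)} (hJ : J ∈ FamI D 𝒟)
    [IsLocalRing (Univ D.sl ⧸ J)] : MatCont (Univ D.sl ⧸ J) (tautJ D J) :=
  MatCont.of_trivial hJ.2.2.2.1

theorem famI_D {J : Ideal (Univ D.sl)} (hJ : J ∈ FamI D 𝒟)
    [IsLocalRing (Univ D.sl ⧸ J)] (hc : MatCont (Univ D.sl ⧸ J) (tautJ D J)) :
    𝒟 (matRep (Univ D.sl ⧸ J) (tautJ D J) hc) :=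
  hJ.2.2.2.2 inferInstance hc

theorem tautJ_factor {J J' : Ideal (Univ D.sl)} (hle : J ≤ J') :
    mapMat (A := Univ D.sl ⧸ J) (B := Univ D.sl ⧸ J')
      ((Ideal.Quotient.factorₐ 𝒪 hle : (Univ D.sl ⧸ J) →ₐ[𝒪] (Univ D.sl ⧸ J')) :
        (Univ D.sl ⧸ J) →+* (Univ D.sl ⧸ J')) (tautJ D J) = tautJ D J' := by
  ext σ i j
  rfl

theorem tautJ_eq_one_iff {J : Ideal (Univ D.sl)} (σ : GQ) :
    tautJ D J σ = 1 ↔ ∀ i j : Fin 2, tautU D.sl σ i j - (1 : Matrix (Fin 2) (Fin 2) (Univ D.sl)) i j ∈ J := by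
  constructor
  · intro h i j
    have := congrFun (congrFun h i) j
    rw [tautJ_apply] at this
    rw [← Ideal.Quotient.eq_zero_iff_mem, map_sub, this]
    by_cases hij : i = j
    · subst hij; simp
    · simp [Matrix.one_apply_ne hij]
  · intro h
    ext i j
    have := h i j
    rw [← Ideal.Quotient.eq_zero_iff_mem, map_sub, sub_eq_zero] at this
    rw [tautJ_apply, this]
    by_cases hij : i = j
    · subst hij; simp
    · simp [Matrix.one_apply_ne hij]

theorem TautTrivial.mono {J J' : Ideal (Univ D.sl)} (h : TautTrivial D J) (hle : J ≤ J') :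
    TautTrivial D J' := by
  obtain ⟨L, hL, h⟩ := h
  refine ⟨L, hL, fun σ hσ => ?_⟩
  rw [tautJ_eq_one_iff]
  exact fun i j => hle ((tautJ_eq_one_iff σ).mp (h σ hσ) i j)

theorem TautTrivial.inf {J J' : Ideal (Univ D.sl)} (h : TautTrivial D J) (h' : TautTrivial D J') :
    TautTrivial D (J ⊓ J') := by
  obtain ⟨L, hL, h⟩ := h
  obtain ⟨L', hL', h'⟩ := h'
  refine ⟨L ⊔ L', IntermediateField.finiteDimensional_sup L L', fun σ hσ => ?_⟩
  have h1 := (tautJ_eq_one_iff σ).mp (h σ fun x hx => hσ x ((le_sup_left : L ≤ L ⊔ L') hx))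
  have h2 := (tautJ_eq_one_iff σ).mp (h' σ fun x hx => hσ x ((le_sup_right : L' ≤ L ⊔ L') hx))
  exact (tautJ_eq_one_iff σ).mpr fun i j => ⟨h1 i j, h2 i j⟩

/-- Upward closure of the family (from the base-change axiom). -/
theorem famI_up (h𝒟 : GaloisRep.IsDeformationCondition 𝒪 𝒟) {J J' : Ideal (Univ D.sl)}
    (hJ : J ∈ FamI D 𝒟) (hle : J ≤ J') (hJ' : J' ≤ mChi D) : J' ∈ FamI D 𝒟 := by
  obtain ⟨n, hn⟩ := hJ.2.2.1
  have := famI_finite hJ
  have : Finite (Univ D.sl ⧸ J') :=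
    Finite.of_surjective (Ideal.Quotient.factor hle) (Ideal.Quotient.factor_surjective hle)
  refine ⟨hJ', inferInstance, ⟨n, hn.trans hle⟩, hJ.2.2.2.1.mono hle, ?_⟩
  intro hloc' hc'
  have := famI_isLocalRing hJ
  have hφ : IsLocalHom ((Ideal.Quotient.factorₐ 𝒪 hle : (Univ D.sl ⧸ J) →ₐ[𝒪] (Univ D.sl ⧸ J')) :
        (Univ D.sl ⧸ J) →+* (Univ D.sl ⧸ J')) :=
    isLocalHom_of_surjective (A := Univ D.sl ⧸ J) (B := Univ D.sl ⧸ J') _
      (Ideal.Quotient.factor_surjective hle)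
  exact D_map 𝒟 h𝒟 (isArtinianTestAlgebra_quot D (famI_le hJ))
    (isArtinianTestAlgebra_quot D hJ') (Ideal.Quotient.factorₐ 𝒪 hle) hφ (famI_matCont hJ) hc'
    (tautJ_factor hle) (famI_D hJ (famI_matCont hJ))

/-- Stability of the family under binary intersections (from the fibre-product axiom). -/
theorem famI_inf (h𝒟 : GaloisRep.IsDeformationCondition 𝒪 𝒟) {J J' : Ideal (Univ D.sl)}
    (hJ : J ∈ FamI D 𝒟) (hJ' : J' ∈ FamI D 𝒟) : J ⊓ J' ∈ FamI D 𝒟 := by
  obtain ⟨n, hn⟩ := hJ.2.2.1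
  obtain ⟨n', hn'⟩ := hJ'.2.2.1
  have hle : J ⊓ J' ≤ mChi D := inf_le_left.trans hJ.1
  have hfJ := famI_finite hJ
  have hfJ' := famI_finite hJ'
  have hinj : Function.Injective (fun x : Univ D.sl ⧸ (J ⊓ J') =>
      (Ideal.Quotient.factorₐ 𝒪 (inf_le_left : J ⊓ J' ≤ J) x,
        Ideal.Quotient.factorₐ 𝒪 (inf_le_right : J ⊓ J' ≤ J') x)) := by
    intro x y hxy
    obtain ⟨u, rfl⟩ := Ideal.Quotient.mk_surjective x
    obtain ⟨w, rfl⟩ := Ideal.Quotient.mk_surjective y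
    have h1 := (Prod.mk.inj hxy).1
    have h2 := (Prod.mk.inj hxy).2
    rw [Ideal.Quotient.factorₐ_apply_mk, Ideal.Quotient.factorₐ_apply_mk,
      Ideal.Quotient.eq] at h1 h2
    exact Ideal.Quotient.eq.mpr ⟨h1, h2⟩
  have hfin : Finite (Univ D.sl ⧸ (J ⊓ J')) := Finite.of_injective _ hinj
  have hpow : mChi D ^ (max n n') ≤ J ⊓ J' :=
    le_inf ((Ideal.pow_le_pow_right (le_max_left n n')).trans hn)
      ((Ideal.pow_le_pow_right (le_max_right n n')).trans hn')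
  refine ⟨hle, hfin, ⟨_, hpow⟩, hJ.2.2.2.1.inf hJ'.2.2.2.1, ?_⟩
  intro hloc hc
  have hlJ := famI_isLocalRing hJ
  have hlJ' := famI_isLocalRing hJ'
  have hsup : J ⊔ J' ≤ mChi D := sup_le hJ.1 hJ'.1
  have hJs : J ⊔ J' ∈ FamI D 𝒟 := famI_up h𝒟 hJ le_sup_left hsup
  have hls := famI_isLocalRing hJs
  have hfs := famI_finite hJs
  have hpA : IsLocalHom ((Ideal.Quotient.factorₐ 𝒪 (inf_le_left : J ⊓ J' ≤ J) :
      (Univ D.sl ⧸ (J ⊓ J')) →ₐ[𝒪] (Univ D.sl ⧸ J)) : (Univ D.sl ⧸ (J ⊓ J')) →+* (Univ D.sl ⧸ J)) :=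
    isLocalHom_of_surjective (A := Univ D.sl ⧸ (J ⊓ J')) (B := Univ D.sl ⧸ J) _
      (Ideal.Quotient.factor_surjective inf_le_left)
  have hpB : IsLocalHom ((Ideal.Quotient.factorₐ 𝒪 (inf_le_right : J ⊓ J' ≤ J') :
      (Univ D.sl ⧸ (J ⊓ J')) →ₐ[𝒪] (Univ D.sl ⧸ J')) :
        (Univ D.sl ⧸ (J ⊓ J')) →+* (Univ D.sl ⧸ J')) :=
    isLocalHom_of_surjective (A := Univ D.sl ⧸ (J ⊓ J')) (B := Univ D.sl ⧸ J') _
      (Ideal.Quotient.factor_surjective inf_le_right)
  refine h𝒟.of_fibreProduct (isArtinianTestAlgebra_quot D hJ.1)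
    (isArtinianTestAlgebra_quot D hJ'.1) (isArtinianTestAlgebra_quot D hsup)
    (isArtinianTestAlgebra_quot D hle)
    (Ideal.Quotient.factorₐ 𝒪 (le_sup_left : J ≤ J ⊔ J'))
    (Ideal.Quotient.factorₐ 𝒪 (le_sup_right : J' ≤ J ⊔ J'))
    (Ideal.Quotient.factorₐ 𝒪 (inf_le_left : J ⊓ J' ≤ J))
    (Ideal.Quotient.factorₐ 𝒪 (inf_le_right : J ⊓ J' ≤ J')) hpA hpB ?_ hinj ?_ ?_ ?_
  · apply Ideal.Quotient.algHom_ext
    rfl
  · intro a b hab
    obtain ⟨u, rfl⟩ := Ideal.Quotient.mk_surjective a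
    obtain ⟨w, rfl⟩ := Ideal.Quotient.mk_surjective b
    rw [Ideal.Quotient.factorₐ_apply_mk, Ideal.Quotient.factorₐ_apply_mk,
      Ideal.Quotient.eq, Submodule.mem_sup] at hab
    obtain ⟨j, hj, j', hj', hjj'⟩ := hab
    refine ⟨Ideal.Quotient.mk (J ⊓ J') (u - j), ?_, ?_⟩
    · rw [Ideal.Quotient.factorₐ_apply_mk, Ideal.Quotient.eq]
      simpa using J.neg_mem hj
    · rw [Ideal.Quotient.factorₐ_apply_mk, Ideal.Quotient.eq]
      have : u - j - w = j' := by linear_combination -hjj'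
      rw [this]
      exact hj'
  · exact D_baseChange_of 𝒟 h𝒟 (isArtinianTestAlgebra_quot D hJ.1) _ hpA hc
      (famI_matCont hJ) (tautJ_factor inf_le_left) (famI_D hJ (famI_matCont hJ))
  · exact D_baseChange_of 𝒟 h𝒟 (isArtinianTestAlgebra_quot D hJ'.1) _ hpB hc
      (famI_matCont hJ') (tautJ_factor inf_le_right) (famI_D hJ' (famI_matCont hJ'))

/-- The residue field is an Artinian test algebra. -/
theorem isArtinianTestAlgebra_residueField (𝒪 : Type) [CommRing 𝒪] [IsLocalRing 𝒪] :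
    GaloisRep.IsArtinianTestAlgebra 𝒪 (ResidueField 𝒪) where
  isLocalHom := by
    rw [IsLocalRing.ResidueField.algebraMap_eq]
    infer_instance
  residue_surjective := by
    rw [IsLocalRing.ResidueField.algebraMap_eq]
    exact (IsLocalRing.residue_surjective).comp IsLocalRing.residue_surjective
  isArtinian := inferInstance

variable (D) in
/-- The isomorphism `U ⧸ mChi ≃ k` as an algebra map. -/
def chiBar : (Univ D.sl ⧸ mChi D) →ₐ[𝒪] ResidueField 𝒪 :=
  Ideal.Quotient.liftₐ (mChi D) (chi D) (fun _ ha => ha)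

theorem chiBar_mk (u : Univ D.sl) : chiBar D (Ideal.Quotient.mk (mChi D) u) = chi D u := rfl

theorem chiBar_injective : Function.Injective (chiBar D) := by
  rw [injective_iff_map_eq_zero]
  intro x hx
  obtain ⟨u, rfl⟩ := Ideal.Quotient.mk_surjective x
  rw [chiBar_mk] at hx
  exact Ideal.Quotient.eq_zero_iff_mem.mpr hx

theorem tautTrivial_mChi : TautTrivial D (mChi D) := by
  obtain ⟨L, hL, h⟩ := D.hrb
  refine ⟨L, hL, fun σ hσ => (tautJ_eq_one_iff σ).mpr fun i j => ?_⟩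
  rw [mem_mChi, map_sub, chi_tautU, h σ hσ, sub_eq_zero]
  by_cases hij : i = j
  · subst hij; simp
  · simp [Matrix.one_apply_ne hij]

/-- The maximal ideal belongs to the family (from `𝒟 ρbar`). -/
theorem famI_top [Finite (ResidueField 𝒪)] (h𝒟 : GaloisRep.IsDeformationCondition 𝒪 𝒟)
    (hbar : 𝒟 (GaloisRepAdic.ofResidualGaloisRep ρbar)) : mChi D ∈ FamI D 𝒟 := by
  have hfin : Finite (Univ D.sl ⧸ mChi D) := Finite.of_injective _ (chiBar_injective (D := D))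
  refine ⟨le_rfl, hfin, ⟨1, by rw [pow_one]⟩, tautTrivial_mChi, ?_⟩
  intro hloc hc
  have hck : MatCont (ResidueField 𝒪) D.rb := MatCont.of_trivial D.hrb
  have h1 : 𝒟 (matRep (ResidueField 𝒪) D.rb hck) := by
    refine h𝒟.of_isEquiv (isArtinianTestAlgebra_residueField 𝒪) ?_ hbar
    obtain ⟨e⟩ := D.equiv
    exact ⟨⟨e.toLinearEquiv, e.map_apply⟩⟩
  have hφ : IsLocalHom ((chiBar D : (Univ D.sl ⧸ mChi D) →ₐ[𝒪] ResidueField 𝒪) :
      (Univ D.sl ⧸ mChi D) →+* ResidueField 𝒪) := by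
    refine ⟨fun a ha => ?_⟩
    by_contra hna
    have hmem : a ∈ maximalIdeal (Univ D.sl ⧸ mChi D) := hna
    obtain ⟨u, rfl⟩ := Ideal.Quotient.mk_surjective a
    rw [mk_mem_maximalIdeal_quot_iff (mChi D) le_rfl] at hmem
    have h0 : chiBar D (Ideal.Quotient.mk (mChi D) u) = 0 := hmem
    rw [show ((chiBar D : (Univ D.sl ⧸ mChi D) →ₐ[𝒪] ResidueField 𝒪) :
      (Univ D.sl ⧸ mChi D) →+* ResidueField 𝒪) (Ideal.Quotient.mk (mChi D) u) = 0 from h0] at ha
    exact not_isUnit_zero ha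
  refine D_of_map_injective 𝒟 h𝒟 (isArtinianTestAlgebra_quot D le_rfl)
    (isArtinianTestAlgebra_residueField 𝒪) (chiBar D) hφ chiBar_injective hc hck ?_ h1
  ext σ i j
  rw [mapMat_apply, tautJ_apply]
  exact chi_tautU D σ i j

end Family2

end Fermat.Agent.S53Lib

end
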