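/-
S53 support library (helper7): IntC, the tangent bound for the family `FamI`, from
`GaloisRep.TangentFinite`.
-/
import Mathlib
import Fermat.Agent.Lib.H7.S53Family

set_option autoImplicit false

noncomputable section

namespace Fermat.Agent.S53Lib

open IsLocalRing

/-! ### Dual numbers over the residue field as an `𝒪`-algebra -/

section Dual

/-- An ideal with a vanishing power is adically complete. -/
theorem isAdicComplete_of_pow_eq_bot {A : Type} [CommRing A] (I : Ideal A) (n : ℕ)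
    (h : I ^ n = ⊥) : IsAdicComplete I A := by
  have hbot : (I ^ n • ⊤ : Submodule A A) = ⊥ := by
    rw [h]; simp
  have hH : IsHausdorff I A := by
    refine ⟨fun x hx => ?_⟩
    have := hx n
    rw [SModEq.zero, hbot] at this
    exact this
  have hP : IsPrecomplete I A := by
    refine ⟨fun f hf => ⟨f n, fun m => ?_⟩⟩
    rcases le_total m n with hmn | hnm
    · exact hf hmn
    · have h1 : f n ≡ f m [SMOD (I ^ n • ⊤ : Submodule A A)] := hf hnm
      rw [hbot, SModEq.bot] at h1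
      rw [h1]
  exact { toIsHausdorff := hH, toIsPrecomplete := hP }

variable (𝒪 : Type) [CommRing 𝒪] [IsLocalRing 𝒪]

/-- The `𝒪`-algebra structure on the dual numbers of the residue field used in
`GaloisRep.TangentFinite`. -/
@[reducible] def dualAlg : Algebra 𝒪 (DualNumber (ResidueField 𝒪)) :=
  ((algebraMap (ResidueField 𝒪) (DualNumber (ResidueField 𝒪))).comp
    (algebraMap 𝒪 (ResidueField 𝒪))).toAlgebra

attribute [local instance] dualAlg

theorem dualAlg_algebraMap (c : 𝒪) :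
    algebraMap 𝒪 (DualNumber (ResidueField 𝒪)) c = TrivSqZeroExt.inl (IsLocalRing.residue 𝒪 c) :=
  rfl

theorem dual_mem_maximalIdeal_iff (x : DualNumber (ResidueField 𝒪)) :
    x ∈ maximalIdeal (DualNumber (ResidueField 𝒪)) ↔ x.fst = 0 := by
  rw [IsLocalRing.mem_maximalIdeal, mem_nonunits_iff, TrivSqZeroExt.isUnit_iff_isUnit_fst,
    isUnit_iff_ne_zero, not_not]

theorem dual_maximalIdeal_sq :
    maximalIdeal (DualNumber (ResidueField 𝒪)) ^ 2 = ⊥ := by
  rw [eq_bot_iff, pow_two, Ideal.mul_le]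
  intro x hx y hy
  rw [dual_mem_maximalIdeal_iff] at hx hy
  rw [Ideal.mem_bot]
  ext
  · simp [hx]
  · simp [hx, hy]

instance dual_isAdicComplete : IsAdicComplete (maximalIdeal (DualNumber (ResidueField 𝒪)))
    (DualNumber (ResidueField 𝒪)) :=
  isAdicComplete_of_pow_eq_bot _ 2 (dual_maximalIdeal_sq 𝒪)

instance dual_isLocalHom : IsLocalHom (algebraMap 𝒪 (DualNumber (ResidueField 𝒪))) := by
  refine ⟨fun c hc => ?_⟩
  rw [dualAlg_algebraMap, TrivSqZeroExt.isUnit_iff_isUnit_fst, TrivSqZeroExt.fst_inl] at hc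
  by_contra hnc
  have : IsLocalRing.residue 𝒪 c = 0 := (IsLocalRing.residue_eq_zero_iff c).mpr hnc
  rw [this] at hc
  exact not_isUnit_zero hc

theorem dual_residue_surjective : Function.Surjective
    (IsLocalRing.residue (DualNumber (ResidueField 𝒪)) ∘
      algebraMap 𝒪 (DualNumber (ResidueField 𝒪))) := by
  intro y
  obtain ⟨x, rfl⟩ := IsLocalRing.residue_surjective y
  obtain ⟨c, hc⟩ := IsLocalRing.residue_surjective x.fst
  refine ⟨c, ?_⟩
  rw [Function.comp_apply, eq_comm, ← sub_eq_zero, ← map_sub, IsLocalRing.residue_eq_zero_iff,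
    dual_mem_maximalIdeal_iff, dualAlg_algebraMap]
  simp [hc]

theorem dual_isArtinianTestAlgebra [Finite (ResidueField 𝒪)] :
    GaloisRep.IsArtinianTestAlgebra 𝒪 (DualNumber (ResidueField 𝒪)) where
  isLocalHom := inferInstance
  residue_surjective := dual_residue_surjective 𝒪
  isArtinian := by
    have : Finite (DualNumber (ResidueField 𝒪)) :=
      inferInstanceAs (Finite (ResidueField 𝒪 × ResidueField 𝒪))
    infer_instance

end Dual

/-! ### Points of the universal ring in the dual numbers -/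

section Point

/-- A module over a local ring killed by the maximal ideal has enough linear functionals to
the residue field. -/
theorem exists_linearMap_residueField_ne_zero (𝒪 : Type) [CommRing 𝒪] [IsLocalRing 𝒪]
    {V : Type} [AddCommGroup V] [Module 𝒪 V]
    (hV : ∀ c ∈ maximalIdeal 𝒪, ∀ v : V, c • v = 0) (v : V) (hv : v ≠ 0) :
    ∃ l : V →ₗ[𝒪] ResidueField 𝒪, l v ≠ 0 := by
  have hT : Module.IsTorsionBySet 𝒪 V (maximalIdeal 𝒪) := fun x a => hV a.1 a.2 x
  let _ : Module (ResidueField 𝒪) V := hT.module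
  obtain ⟨l, hl⟩ : ∃ l : Module.Dual (ResidueField 𝒪) V, l v ≠ 0 := by
    by_contra hcon
    push Not at hcon
    exact hv ((Module.forall_dual_apply_eq_zero_iff (ResidueField 𝒪) v).mp hcon)
  refine ⟨{ toFun := fun x => l x, map_add' := fun x y => map_add l x y,
            map_smul' := fun c x => ?_ }, hl⟩
  have h1 : c • x = (IsLocalRing.residue 𝒪 c) • x := rfl
  rw [h1, map_smul, RingHom.id_apply, smul_eq_mul, Algebra.smul_def]
  rfl

variable {𝒪 : Type} [CommRing 𝒪] [IsLocalRing 𝒪]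
variable {ρbar : ResidualGaloisRep (ResidueField 𝒪)} (D : RigidData 𝒪 ρbar)

attribute [local instance] dualAlg

theorem chi_eq_residue_of_sub_mem {x : Univ D.sl} {a : 𝒪}
    (h : x - algebraMap 𝒪 (Univ D.sl) a ∈ mChi D) : chi D x = IsLocalRing.residue 𝒪 a := by
  rw [mem_mChi, map_sub, (chi D).commutes, sub_eq_zero] at h
  exact h

/-- The Leibniz rule for a linear map to the residue field killing `1` and `mChi ^ 2`. -/
theorem deriv_mul (d : Univ D.sl →ₗ[𝒪] ResidueField 𝒪) (h1 : d 1 = 0)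
    (h2 : ∀ x ∈ mChi D, ∀ y ∈ mChi D, d (x * y) = 0) (x y : Univ D.sl) :
    d (x * y) = chi D x * d y + chi D y * d x := by
  obtain ⟨a, ha⟩ := exists_sub_algebraMap_mem_mChi D x
  obtain ⟨b, hb⟩ := exists_sub_algebraMap_mem_mChi D y
  have hxy : x * y = (x - algebraMap 𝒪 (Univ D.sl) a) * (y - algebraMap 𝒪 (Univ D.sl) b) +
      b • x + a • y - (a * b) • (1 : Univ D.sl) := by
    simp only [Algebra.smul_def, map_mul]
    ring
  rw [hxy, map_sub, map_add, map_add, h2 _ ha _ hb, map_smul, map_smul, map_smul, h1,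
    chi_eq_residue_of_sub_mem D ha, chi_eq_residue_of_sub_mem D hb, smul_zero, sub_zero, zero_add,
    Algebra.smul_def, Algebra.smul_def, add_comm]
  rfl

/-- The algebra map to the dual numbers attached to a "derivation". -/
def dualPoint (d : Univ D.sl →ₗ[𝒪] ResidueField 𝒪) (h1 : d 1 = 0)
    (h2 : ∀ x ∈ mChi D, ∀ y ∈ mChi D, d (x * y) = 0) :
    Univ D.sl →ₐ[𝒪] DualNumber (ResidueField 𝒪) where
  toFun x := TrivSqZeroExt.inl (chi D x) + TrivSqZeroExt.inr (d x)
  map_one' := by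
    rw [h1, map_one]
    simp
  map_mul' x y := by
    rw [deriv_mul D d h1 h2 x y, map_mul]
    ext
    · simp
    · simp [mul_comm]
  map_zero' := by simp
  map_add' x y := by
    rw [map_add, map_add]
    ext
    · simp
    · simp
  commutes' c := by
    have hd : d (algebraMap 𝒪 (Univ D.sl) c) = 0 := by
      rw [Algebra.algebraMap_eq_smul_one, map_smul, h1, smul_zero]
    rw [hd, (chi D).commutes, dualAlg_algebraMap]
    simp

theorem dualPoint_fst (d : Univ D.sl →ₗ[𝒪] ResidueField 𝒪) (h1 : d 1 = 0)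
    (h2 : ∀ x ∈ mChi D, ∀ y ∈ mChi D, d (x * y) = 0) (x : Univ D.sl) :
    (dualPoint D d h1 h2 x).fst = chi D x := by
  show (TrivSqZeroExt.inl (chi D x) + TrivSqZeroExt.inr (d x) :
    DualNumber (ResidueField 𝒪)).fst = chi D x
  simp

theorem dualPoint_snd (d : Univ D.sl →ₗ[𝒪] ResidueField 𝒪) (h1 : d 1 = 0)
    (h2 : ∀ x ∈ mChi D, ∀ y ∈ mChi D, d (x * y) = 0) (x : Univ D.sl) :
    (dualPoint D d h1 h2 x).snd = d x := by
  show (TrivSqZeroExt.inl (chi D x) + TrivSqZeroExt.inr (d x) :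
    DualNumber (ResidueField 𝒪)).snd = d x
  simp

/-- Dual-number points separate `mChi / J` when `J` contains `mChi ^ 2` and `𝔪_𝒪 U`. -/
theorem exists_dualPoint (J : Ideal (Univ D.sl)) (hJ : J ≤ mChi D) (hsq : mChi D ^ 2 ≤ J)
    (hm : (maximalIdeal 𝒪).map (algebraMap 𝒪 (Univ D.sl)) ≤ J) (u : Univ D.sl)
    (hu : u ∈ mChi D) (huJ : u ∉ J) :
    ∃ f : Univ D.sl →ₐ[𝒪] DualNumber (ResidueField 𝒪),
      (∀ x, (f x).fst = chi D x) ∧ (∀ x ∈ J, f x = 0) ∧ f u ≠ 0 := by
  set N : Submodule 𝒪 (Univ D.sl) := Submodule.span 𝒪 {1} ⊔ J.restrictScalars 𝒪 with hN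
  have hJN : ∀ x ∈ J, x ∈ N := fun x hx =>
    (le_sup_right : J.restrictScalars 𝒪 ≤ N) hx
  have h1N : (1 : Univ D.sl) ∈ N :=
    (le_sup_left : Submodule.span 𝒪 {1} ≤ N) (Submodule.mem_span_singleton_self 1)
  have huN : u ∉ N := by
    intro h
    obtain ⟨y, hy, j, hj, hyj⟩ := Submodule.mem_sup.mp h
    obtain ⟨c, rfl⟩ := Submodule.mem_span_singleton.mp hy
    have hj' : j ∈ J := hj
    have hc : c • (1 : Univ D.sl) ∈ mChi D := by
      have : c • (1 : Univ D.sl) = u - j := by rw [← hyj]; ring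
      rw [this]
      exact (mChi D).sub_mem hu (hJ hj')
    rw [← Algebra.algebraMap_eq_smul_one, mem_mChi, (chi D).commutes] at hc
    have hc' : c ∈ maximalIdeal 𝒪 := (IsLocalRing.residue_eq_zero_iff c).mp hc
    apply huJ
    rw [← hyj]
    refine J.add_mem (hm ?_) hj'
    rw [← Algebra.algebraMap_eq_smul_one]
    exact Ideal.mem_map_of_mem _ hc'
  have hV : ∀ c ∈ maximalIdeal 𝒪, ∀ v : Univ D.sl ⧸ N, c • v = 0 := by
    intro c hc v
    obtain ⟨x, rfl⟩ := N.mkQ_surjective v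
    rw [← map_smul, Submodule.mkQ_apply, Submodule.Quotient.mk_eq_zero]
    refine hJN _ (hm ?_)
    rw [Algebra.smul_def]
    exact Ideal.mul_mem_right _ _ (Ideal.mem_map_of_mem _ hc)
  have hv : N.mkQ u ≠ 0 := by
    rw [Submodule.mkQ_apply, Ne, Submodule.Quotient.mk_eq_zero]
    exact huN
  obtain ⟨l, hl⟩ := exists_linearMap_residueField_ne_zero 𝒪 hV _ hv
  set d : Univ D.sl →ₗ[𝒪] ResidueField 𝒪 := l.comp N.mkQ with hd
  have hdN : ∀ x ∈ N, d x = 0 := by
    intro x hx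
    rw [hd, LinearMap.comp_apply, Submodule.mkQ_apply, (Submodule.Quotient.mk_eq_zero N).mpr hx,
      map_zero]
  have h1 : d 1 = 0 := hdN 1 h1N
  have h2 : ∀ x ∈ mChi D, ∀ y ∈ mChi D, d (x * y) = 0 := by
    intro x hx y hy
    refine hdN _ (hJN _ (hsq ?_))
    rw [pow_two]
    exact Ideal.mul_mem_mul hx hy
  refine ⟨dualPoint D d h1 h2, dualPoint_fst D d h1 h2, fun x hx => ?_, fun h0 => hl ?_⟩
  · ext
    · rw [dualPoint_fst]
      exact hJ hx
    · rw [dualPoint_snd]
      exact hdN x (hJN x hx)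
  · have := dualPoint_snd D d h1 h2 u
    rw [h0] at this
    exact this.symm

end Point

/-! ### Finiteness of the set of dual-number points of the family, and the tangent bound -/

section Tangent

variable {𝒪 : Type} [CommRing 𝒪] [IsLocalRing 𝒪]
variable {ρbar : ResidualGaloisRep (ResidueField 𝒪)} (D : RigidData 𝒪 ρbar)
variable (𝒟 : ∀ ⦃A : Type⦄ [CommRing A] [IsLocalRing A] [Algebra 𝒪 A], GaloisRepAdic A → Prop)

attribute [local instance] dualAlg

/-- The dual-number points of the universal ring whose kernel lies in the family. -/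
def PhiSet : Type :=
  {f : Univ D.sl →ₐ[𝒪] DualNumber (ResidueField 𝒪) // RingHom.ker f.toRingHom ∈ FamI D 𝒟}

variable {D 𝒟}

theorem phi_fst_eq_chi (f : Univ D.sl →ₐ[𝒪] DualNumber (ResidueField 𝒪))
    (hf : RingHom.ker f.toRingHom ∈ FamI D 𝒟) (x : Univ D.sl) : (f x).fst = chi D x := by
  have hm : ∀ y ∈ mChi D, (f y).fst = 0 := by
    intro y hy
    obtain ⟨n, hn⟩ := hf.2.2.1
    have h1 : y ^ n ∈ RingHom.ker f.toRingHom := hn (Ideal.pow_mem_pow hy n)
    have h2 : f (y ^ n) = 0 := h1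
    rw [map_pow] at h2
    have h3 : (f y).fst ^ n = 0 := by rw [← TrivSqZeroExt.fst_pow, h2, TrivSqZeroExt.fst_zero]
    exact isNilpotent_iff_eq_zero.mp ⟨n, h3⟩
  obtain ⟨a, ha⟩ := exists_sub_algebraMap_mem_mChi D x
  have h1 := hm _ ha
  rw [map_sub, f.commutes, TrivSqZeroExt.fst_sub, dualAlg_algebraMap, TrivSqZeroExt.fst_inl,
    sub_eq_zero] at h1
  rw [h1, chi_eq_residue_of_sub_mem D ha]

theorem phi_trivial (f : Univ D.sl →ₐ[𝒪] DualNumber (ResidueField 𝒪))
    (hf : RingHom.ker f.toRingHom ∈ FamI D 𝒟) :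
    ∃ L : IntermediateField ℚ (AlgebraicClosure ℚ), FiniteDimensional ℚ L ∧
      ∀ σ : GQ, (∀ x ∈ L, σ x = x) →
        mapMat (f : Univ D.sl →+* DualNumber (ResidueField 𝒪)) (tautU D.sl) σ = 1 := by
  obtain ⟨L, hL, h⟩ := hf.2.2.2.1
  refine ⟨L, hL, fun σ hσ => ?_⟩
  have h1 := (tautJ_eq_one_iff σ).mp (h σ hσ)
  refine Matrix.ext fun i j => ?_
  have h2 : f (tautU D.sl σ i j - (1 : Matrix (Fin 2) (Fin 2) (Univ D.sl)) i j) = 0 := h1 i j
  rw [map_sub, sub_eq_zero] at h2
  rw [mapMat_apply]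
  show f (tautU D.sl σ i j) = _
  rw [h2]
  by_cases hij : i = j
  · subst hij; simp
  · simp [Matrix.one_apply_ne hij]

theorem phi_matCont (f : Univ D.sl →ₐ[𝒪] DualNumber (ResidueField 𝒪))
    (hf : RingHom.ker f.toRingHom ∈ FamI D 𝒟) :
    MatCont (DualNumber (ResidueField 𝒪))
      (mapMat (f : Univ D.sl →+* DualNumber (ResidueField 𝒪)) (tautU D.sl)) :=
  MatCont.of_trivial (phi_trivial f hf)

theorem phi_isLift (f : Univ D.sl →ₐ[𝒪] DualNumber (ResidueField 𝒪))
    (hf : RingHom.ker f.toRingHom ∈ FamI D 𝒟) :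
    IsLift D.rt (DualNumber (ResidueField 𝒪))
      (mapMat (f : Univ D.sl →+* DualNumber (ResidueField 𝒪)) (tautU D.sl)) := by
  intro σ i j
  rw [dual_mem_maximalIdeal_iff, mapMat_apply]
  have h1 : (f (tautU D.sl σ i j - algebraMap 𝒪 (Univ D.sl) (D.rt σ i j))).fst = 0 := by
    rw [phi_fst_eq_chi f hf]
    exact tautU_sub_mem_mChi D σ i j
  rw [map_sub, f.commutes] at h1
  exact h1

theorem phi_D [Finite (ResidueField 𝒪)] (h𝒟 : GaloisRep.IsDeformationCondition 𝒪 𝒟)
    (f : Univ D.sl →ₐ[𝒪] DualNumber (ResidueField 𝒪))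
    (hf : RingHom.ker f.toRingHom ∈ FamI D 𝒟)
    (hc : MatCont (DualNumber (ResidueField 𝒪))
      (mapMat (f : Univ D.sl →+* DualNumber (ResidueField 𝒪)) (tautU D.sl))) :
    𝒟 (matRep (DualNumber (ResidueField 𝒪))
      (mapMat (f : Univ D.sl →+* DualNumber (ResidueField 𝒪)) (tautU D.sl)) hc) := by
  have := famI_isLocalRing hf
  have := famI_finite hf
  let φ : (Univ D.sl ⧸ RingHom.ker f.toRingHom) →ₐ[𝒪] DualNumber (ResidueField 𝒪) :=
    Ideal.Quotient.liftₐ (RingHom.ker f.toRingHom) f (fun a ha => ha)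
  have hφ : IsLocalHom (φ : (Univ D.sl ⧸ RingHom.ker f.toRingHom) →+*
      DualNumber (ResidueField 𝒪)) := by
    refine ⟨fun a ha => ?_⟩
    by_contra hna
    obtain ⟨x, rfl⟩ := Ideal.Quotient.mk_surjective a
    have hx : x ∈ mChi D := (mk_mem_maximalIdeal_quot_iff (mChi D) (famI_le hf) x).mp hna
    have h0 : (f x).fst = 0 := by rw [phi_fst_eq_chi f hf]; exact hx
    have ha' : IsUnit (f x) := ha
    rw [TrivSqZeroExt.isUnit_iff_isUnit_fst, h0] at ha'
    exact not_isUnit_zero ha'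
  refine D_map 𝒟 h𝒟 (isArtinianTestAlgebra_quot D (famI_le hf)) (dual_isArtinianTestAlgebra 𝒪) φ hφ
    (famI_matCont hf) hc ?_ (famI_D hf (famI_matCont hf))
  exact MonoidHom.ext fun σ => Matrix.ext fun i j => rfl

theorem phi_residual (f : Univ D.sl →ₐ[𝒪] DualNumber (ResidueField 𝒪))
    (hf : RingHom.ker f.toRingHom ∈ FamI D 𝒟)
    (hc : MatCont (DualNumber (ResidueField 𝒪))
      (mapMat (f : Univ D.sl →+* DualNumber (ResidueField 𝒪)) (tautU D.sl))) :
    (matRep (DualNumber (ResidueField 𝒪))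
      (mapMat (f : Univ D.sl →+* DualNumber (ResidueField 𝒪)) (tautU D.sl)) hc).residual.IsEquiv
      (ρbar.baseChangeAlong ((IsLocalRing.residue (DualNumber (ResidueField 𝒪))).comp
        (algebraMap (ResidueField 𝒪) (DualNumber (ResidueField 𝒪))))) := by
  have h := residual_isEquiv_of_isLift 𝒪 (DualNumber (ResidueField 𝒪)) ρbar D.rb D.hrb D.equiv
    D.rt D.res_rt _ hc (phi_isLift f hf)
  have hψ : IsLocalRing.ResidueField.map (algebraMap 𝒪 (DualNumber (ResidueField 𝒪))) =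
      (IsLocalRing.residue (DualNumber (ResidueField 𝒪))).comp
        (algebraMap (ResidueField 𝒪) (DualNumber (ResidueField 𝒪))) := by
    ext x
    obtain ⟨c, rfl⟩ := IsLocalRing.residue_surjective x
    rfl
  rw [hψ] at h
  exact h

theorem phi_injective (f f' : Univ D.sl →ₐ[𝒪] DualNumber (ResidueField 𝒪))
    (hf : RingHom.ker f.toRingHom ∈ FamI D 𝒟) (hf' : RingHom.ker f'.toRingHom ∈ FamI D 𝒟)
    (hc : MatCont (DualNumber (ResidueField 𝒪))
      (mapMat (f : Univ D.sl →+* DualNumber (ResidueField 𝒪)) (tautU D.sl)))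
    (hc' : MatCont (DualNumber (ResidueField 𝒪))
      (mapMat (f' : Univ D.sl →+* DualNumber (ResidueField 𝒪)) (tautU D.sl)))
    (he : (matRep (DualNumber (ResidueField 𝒪)) _ hc).IsEquiv
      (matRep (DualNumber (ResidueField 𝒪)) _ hc')) : f = f' := by
  apply univ_algHom_ext
  exact D.unique_slice (DualNumber (ResidueField 𝒪)) inferInstance (dual_residue_surjective 𝒪) _ _
    (phi_isLift f hf) (phi_isLift f' hf') (inSlice_mapMat f) (inSlice_mapMat f')
    ((matRep_isEquiv_iff _ _ _ hc hc').mp he)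

variable (D 𝒟)

theorem finite_phiSet [Finite (ResidueField 𝒪)] (h𝒟 : GaloisRep.IsDeformationCondition 𝒪 𝒟)
    (hfin : GaloisRep.TangentFinite 𝒪 ρbar 𝒟) : Finite (PhiSet D 𝒟) := by
  unfold GaloisRep.TangentFinite at hfin
  refine @Finite.of_injective (PhiSet D 𝒟) _ hfin (fun f => Quotient.mk _
    ⟨matRep (DualNumber (ResidueField 𝒪))
      (mapMat (f.1 : Univ D.sl →+* DualNumber (ResidueField 𝒪)) (tautU D.sl))
      (phi_matCont f.1 f.2), phi_D h𝒟 f.1 f.2 _, phi_residual f.1 f.2 _⟩) ?_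
  intro f f' hff'
  have h := Quotient.exact hff'
  exact Subtype.ext (phi_injective f.1 f'.1 f.2 f'.2 (phi_matCont f.1 f.2)
    (phi_matCont f'.1 f'.2) h)

/-- IntC: one member `J₂` of the family controls all cotangent directions. -/
theorem famI_tan [Finite (ResidueField 𝒪)] (h𝒟 : GaloisRep.IsDeformationCondition 𝒪 𝒟)
    (hbar : 𝒟 (GaloisRepAdic.ofResidualGaloisRep ρbar))
    (hfin : GaloisRep.TangentFinite 𝒪 ρbar 𝒟) :
    ∃ J₂ ∈ FamI D 𝒟, ∀ J ∈ FamI D 𝒟,
      J₂ ≤ J ⊔ mChi D ^ 2 ⊔ (maximalIdeal 𝒪).map (algebraMap 𝒪 (Univ D.sl)) := by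
  have := finite_phiSet D 𝒟 h𝒟 hfin
  let _ := Fintype.ofFinite (PhiSet D 𝒟)
  refine ⟨mChi D ⊓ Finset.univ.inf (fun f : PhiSet D 𝒟 => RingHom.ker f.1.toRingHom), ?_, ?_⟩
  · refine Finset.inf_induction (p := fun I => mChi D ⊓ I ∈ FamI D 𝒟) ?_ ?_ ?_
    · rw [inf_top_eq]
      exact famI_top h𝒟 hbar
    · intro a ha b hb
      have : mChi D ⊓ (a ⊓ b) = (mChi D ⊓ a) ⊓ (mChi D ⊓ b) := by rw [inf_inf_distrib_left]
      rw [this]
      exact famI_inf h𝒟 ha hb
    · intro f _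
      exact famI_inf h𝒟 (famI_top h𝒟 hbar) f.2
  · intro J hJ u hu
    by_contra hnot
    have huM : u ∈ mChi D := hu.1
    have hJ'le : J ⊔ mChi D ^ 2 ⊔ (maximalIdeal 𝒪).map (algebraMap 𝒪 (Univ D.sl)) ≤ mChi D :=
      sup_le (sup_le (famI_le hJ) (Ideal.pow_le_self two_ne_zero))
        (Ideal.map_le_iff_le_comap.mpr (fun c hc => algebraMap_mem_mChi D hc))
    obtain ⟨f, hf1, hf2, hf3⟩ := exists_dualPoint D _ hJ'le (le_sup_of_le_left le_sup_right)
      le_sup_right u huM hnot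
    have hker : RingHom.ker f.toRingHom ∈ FamI D 𝒟 := by
      refine famI_up h𝒟 hJ (fun x hx => ?_) (fun x hx => ?_)
      · exact hf2 x (Ideal.mem_sup_left (Ideal.mem_sup_left hx))
      · have hx0 : f x = 0 := hx
        rw [mem_mChi, ← hf1, hx0]
        rfl
    have hmem : u ∈ RingHom.ker f.toRingHom :=
      (Finset.inf_le (@Finset.mem_univ (PhiSet D 𝒟) _ ⟨f, hker⟩) :
        Finset.univ.inf (fun f : PhiSet D 𝒟 => RingHom.ker f.1.toRingHom) ≤ _) hu.2
    exact hf3 hmem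

end Tangent

end Fermat.Agent.S53Lib

end
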