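/-
S53 support library (helper7): the output structure of the abstract pro-representability
theorem (sub-task T2).  Pure Mathlib.
-/
import Mathlib

set_option autoImplicit false

namespace Fermat.Agent.S53Lib

/-- Output of the abstract pro-representability theorem: a complete Noetherian local
`𝒪`-algebra `R` with residue field that of `𝒪`, and an `𝒪`-algebra map `Θ : U → R` with dense
image such that the ideals `Θ⁻¹(𝔪_R^(n+1))` lie in `𝓘` and are cofinal in `𝓘`. -/
structure ProRepData (𝒪 : Type) [CommRing 𝒪] [IsLocalRing 𝒪] (U : Type) [CommRing U]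
    [Algebra 𝒪 U] (𝓘 : Set (Ideal U)) : Type 1 where
  R : Type
  [instCommRing : CommRing R]
  [instIsLocalRing : IsLocalRing R]
  [instIsNoetherianRing : IsNoetherianRing R]
  [instIsAdicComplete : IsAdicComplete (IsLocalRing.maximalIdeal R) R]
  [instAlgebra : Algebra 𝒪 R]
  [instIsLocalHom : IsLocalHom (algebraMap 𝒪 R)]
  residue_surjective : Function.Surjective (IsLocalRing.residue R ∘ algebraMap 𝒪 R)
  Θ : U →ₐ[𝒪] R
  comap_mem : ∀ n : ℕ, (IsLocalRing.maximalIdeal R ^ (n + 1)).comap Θ.toRingHom ∈ 𝓘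
  dense : ∀ (n : ℕ) (r : R), ∃ u : U, r - Θ u ∈ IsLocalRing.maximalIdeal R ^ n
  cofinal : ∀ J ∈ 𝓘, ∃ n : ℕ, (IsLocalRing.maximalIdeal R ^ n).comap Θ.toRingHom ≤ J

attribute [instance] ProRepData.instCommRing ProRepData.instIsLocalRing
  ProRepData.instIsNoetherianRing ProRepData.instIsAdicComplete ProRepData.instAlgebra
  ProRepData.instIsLocalHom

end Fermat.Agent.S53Lib
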