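/-
S53 support library (helper7): final assembly of the universal deformation ring from the
rigidification (T3), the abstract pro-representability theorem (T2), the matrix layer (T4) and
the integration lemmas IntC..IntF.
-/
import Mathlib
import Fermat.Agent.Lib.H7.S53Family
import Fermat.Agent.Lib.H7.S53ProRepDefs
import Fermat.Agent.Lib.H7.S53IntC
import Fermat.Agent.Lib.S53.S53IntD
import Fermat.Agent.Lib.S53.S53IntE
import Fermat.Agent.Lib.S53.S53IntF
import Fermat.Agent.Lib.S53.S53T3Rigid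
import Fermat.Agent.Lib.S53.S53T2

set_option autoImplicit false

noncomputable section

namespace Fermat.Agent.S53Lib

open IsLocalRing

/-- Package the output of `exists_rigidification`. -/
theorem nonempty_rigidData (𝒪 : Type) [CommRing 𝒪] [IsLocalRing 𝒪]
    (ρbar : ResidualGaloisRep (ResidueField 𝒪)) (habs : ρbar.IsAbsolutelyIrreducible) :
    Nonempty (RigidData 𝒪 ρbar) := by
  obtain ⟨rb, hrb, rt, sl, h1, h2, h3, h4, h5⟩ := exists_rigidification 𝒪 ρbar habs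
  exact ⟨⟨rb, hrb, rt, sl, h1, h2, h3, h4, h5⟩⟩

section Main

variable {𝒪 : Type} [CommRing 𝒪] [IsLocalRing 𝒪]
variable {ρbar : ResidualGaloisRep (ResidueField 𝒪)} {D : RigidData 𝒪 ρbar}
variable {𝒟 : ∀ ⦃A : Type⦄ [CommRing A] [IsLocalRing A] [Algebra 𝒪 A], GaloisRepAdic A → Prop}

/-- Transfer of `𝒟` along equivalences over complete Noetherian local rings. -/
theorem D_of_isEquiv_complete (h𝒟 : GaloisRep.IsDeformationCondition 𝒪 𝒟) (A : Type)
    [CommRing A] [IsLocalRing A] [IsNoetherianRing A] [IsAdicComplete (maximalIdeal A) A]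
    [Algebra 𝒪 A] (hloc : IsLocalHom (algebraMap 𝒪 A))
    (hsurj : Function.Surjective (IsLocalRing.residue A ∘ algebraMap 𝒪 A))
    {ρ ρ' : GaloisRepAdic A} (he : ρ.IsEquiv ρ') (h : 𝒟 ρ) : 𝒟 ρ' := by
  rw [h𝒟.iff_forall_surjective hloc hsurj] at h ⊢
  intro B _ _ _ hB q hq hqs
  obtain ⟨e⟩ := he
  exact h𝒟.of_isEquiv hB ⟨e.baseChangeAlong _ hq⟩ (h hB q hq hqs)

/-- The hypotheses of the abstract pro-representability theorem hold for `FamI`. -/
theorem nonempty_proRepData_famI [IsNoetherianRing 𝒪] [IsAdicComplete (maximalIdeal 𝒪) 𝒪]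
    [Finite (ResidueField 𝒪)] (D : RigidData 𝒪 ρbar)
    (h𝒟 : GaloisRep.IsDeformationCondition 𝒪 𝒟)
    (hbar : 𝒟 (GaloisRepAdic.ofResidualGaloisRep ρbar))
    (hfin : GaloisRep.TangentFinite 𝒪 ρbar 𝒟) :
    Nonempty (ProRepData 𝒪 (Univ D.sl) (FamI D 𝒟)) := by
  refine nonempty_proRepData 𝒪 (Univ D.sl) (mChi D) ?_ (FamI D 𝒟) (fun J hJ => famI_le hJ)
    (fun J hJ => famI_finite hJ) (fun J hJ => hJ.2.2.1) (fun J hJ J' hJ' => famI_inf h𝒟 hJ hJ')
    (fun J hJ J' hle hJ' => famI_up h𝒟 hJ hle hJ') (famI_top h𝒟 hbar) (famI_tan D 𝒟 h𝒟 hbar hfin)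
  intro x
  obtain ⟨u, rfl⟩ := Ideal.Quotient.mk_surjective x
  obtain ⟨c, hc⟩ := exists_sub_algebraMap_mem_mChi D u
  refine ⟨c, ?_⟩
  rw [RingHom.comp_apply, eq_comm]
  exact Ideal.Quotient.eq.mpr hc

/-- The universal property of the representation over a `ProRepData` ring of `FamI`. -/
theorem universal_theta [Finite (ResidueField 𝒪)] (h𝒟 : GaloisRep.IsDeformationCondition 𝒪 𝒟)
    (P : ProRepData 𝒪 (Univ D.sl) (FamI D 𝒟))
    (hc : MatCont P.R (mapMat (P.Θ : Univ D.sl →+* P.R) (tautU D.sl)))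
    (A : Type) [CommRing A] [IsLocalRing A] [IsNoetherianRing A]
    [IsAdicComplete (maximalIdeal A) A] [Algebra 𝒪 A] [IsLocalHom (algebraMap 𝒪 A)]
    (hsurj : Function.Surjective (IsLocalRing.residue A ∘ algebraMap 𝒪 A))
    (ρA : GaloisRepAdic A) (hρA : 𝒟 ρA)
    (hres : ρA.residual.IsEquiv
      (ρbar.baseChangeAlong (IsLocalRing.ResidueField.map (algebraMap 𝒪 A)))) :
    ∃! φ : P.R →ₐ[𝒪] A, ∃ hφ : IsLocalHom (φ : P.R →+* A),
      ((matRep P.R (mapMat (P.Θ : Univ D.sl →+* P.R) (tautU D.sl)) hc).baseChangeAlong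
        (φ : P.R →+* A) hφ).IsEquiv ρA := by
  obtain ⟨r₀, hr₀, hl₀, he₀⟩ := exists_lift_of_residual_isEquiv 𝒪 A ρbar D.rb D.hrb D.equiv
    D.rt D.res_rt ρA hres
  obtain ⟨r, hl, hs, Q, hQ, hQr⟩ := D.exists_slice A inferInstance r₀ hl₀
  have hr : MatCont A r := hr₀.conj Q hQ hQr
  have he : ρA.IsEquiv (matRep A r hr) :=
    isEquiv_trans he₀ ((matRep_isEquiv_iff A r₀ r hr₀ hr).mpr ⟨Q, hQ, hQr⟩)
  have hDr : 𝒟 (matRep A r hr) := D_of_isEquiv_complete h𝒟 A inferInstance hsurj he hρA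
  obtain ⟨φ, hφ, hφα⟩ := P.exists_lift A (classify D.sl A r hs)
    (fun n => comap_classify_mem_famI h𝒟 A hsurj r hr hl hs hDr n)
  -- the image representation of a local algebra map `ψ : R → A`
  have himg : ∀ ψ : P.R →ₐ[𝒪] A, mapMat (ψ : P.R →+* A)
      (mapMat (P.Θ : Univ D.sl →+* P.R) (tautU D.sl)) =
      mapMat ((ψ.comp P.Θ : Univ D.sl →ₐ[𝒪] A) : Univ D.sl →+* A) (tautU D.sl) := by
    intro ψ
    ext σ i j
    rfl
  refine ⟨φ, ⟨hφ, ?_⟩, ?_⟩
  · refine isEquiv_trans (matRep_baseChangeAlong P.R A (φ : P.R →+* A) hφ _ hc) ?_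
    refine isEquiv_trans (matRep_congr ?_ _ hr) (isEquiv_symm he)
    rw [himg φ, hφα, mapMat_classify]
  · rintro ψ ⟨hψ, heψ⟩
    refine P.lift_unique A ψ φ hψ hφ ?_
    rw [hφα]
    apply univ_algHom_ext
    rw [mapMat_classify, ← himg ψ]
    have hcψ : MatCont A (mapMat (ψ : P.R →+* A)
        (mapMat (P.Θ : Univ D.sl →+* P.R) (tautU D.sl))) := hc.map _ hψ
    have h1 : (matRep A _ hcψ).IsEquiv (matRep A r hr) :=
      isEquiv_trans (isEquiv_symm (matRep_baseChangeAlong P.R A (ψ : P.R →+* A) hψ _ hc))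
        (isEquiv_trans heψ he)
    have h2 := (matRep_isEquiv_iff A _ r hcψ hr).mp h1
    refine D.unique_slice A inferInstance hsurj _ r ?_ hl ?_ hs h2
    · intro σ i j
      have h3 := isLift_theta P σ i j
      have h4 : (ψ : P.R →+* A) (mapMat (P.Θ : Univ D.sl →+* P.R) (tautU D.sl) σ i j -
          algebraMap 𝒪 P.R (D.rt σ i j)) ∈ maximalIdeal A := by
        by_contra hnot
        have hu : IsUnit ((ψ : P.R →+* A) (mapMat (P.Θ : Univ D.sl →+* P.R) (tautU D.sl) σ i j -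
          algebraMap 𝒪 P.R (D.rt σ i j))) := by
          by_contra hnu
          exact hnot hnu
        exact h3 (hψ.map_nonunit _ hu)
      rw [map_sub] at h4
      have h5 : (ψ : P.R →+* A) (algebraMap 𝒪 P.R (D.rt σ i j)) = algebraMap 𝒪 A (D.rt σ i j) :=
        ψ.commutes _
      rw [h5] at h4
      exact h4
    · rw [himg ψ]
      exact inSlice_mapMat _

end Main

end Fermat.Agent.S53Lib

end
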